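import Mathlib

/-!
# PROJECT W (S52), T3, abstract brick: archimedean bounds

Mathlib only.  The Cauchy bound for integer roots of a monic integer polynomial and a crude
bound for the values of an integer polynomial.
-/

namespace Fermat.Agent.S52.T3.HitRoot

open Polynomial

/-- Cauchy bound: an integer root of a monic integer polynomial is bounded by the sum of the
absolute values of the lower coefficients. -/
theorem int_root_abs_le (f : ℤ[X]) (hf : f.Monic) (y : ℤ) (hy : f.eval y = 0) :
    |y| ≤ ∑ j ∈ Finset.range f.natDegree, |f.coeff j| := by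
  have hS : 0 ≤ ∑ j ∈ Finset.range f.natDegree, |f.coeff j| :=
    Finset.sum_nonneg (fun j _ => abs_nonneg _)
  by_cases hy0 : y = 0
  · rw [hy0, abs_zero]; exact hS
  have h1 : y ^ f.natDegree + ∑ j ∈ Finset.range f.natDegree, f.coeff j * y ^ j = 0 := by
    have h2 := congrArg (fun q : ℤ[X] => q.eval y) hf.as_sum
    simp only [eval_add, eval_pow, eval_X, eval_finsetSum, eval_mul, eval_C] at h2
    rw [← h2]; exact hy
  have hd : f.natDegree ≠ 0 := by
    intro hd
    rw [hd] at h1
    simp at h1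
  obtain ⟨d, hd'⟩ := Nat.exists_eq_succ_of_ne_zero hd
  have ha : 1 ≤ |y| := Int.one_le_abs hy0
  have hpos : 0 < |y| ^ d := pow_pos (lt_of_lt_of_le one_pos ha) d
  have h3 : |y| ^ f.natDegree ≤ (∑ j ∈ Finset.range f.natDegree, |f.coeff j|) * |y| ^ d := by
    have h4 : y ^ f.natDegree = -∑ j ∈ Finset.range f.natDegree, f.coeff j * y ^ j := by
      linarith
    rw [← abs_pow, h4, abs_neg, Finset.sum_mul]
    refine le_trans (Finset.abs_sum_le_sum_abs _ _) (Finset.sum_le_sum (fun j hj => ?_))
    rw [abs_mul, abs_pow]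
    refine mul_le_mul_of_nonneg_left ?_ (abs_nonneg _)
    refine pow_le_pow_right₀ ha ?_
    have := Finset.mem_range.1 hj
    omega
  rw [hd', pow_succ'] at h3
  exact le_of_mul_le_mul_right (hd' ▸ h3) hpos

/-- A crude bound for the values of an integer polynomial of degree `≤ D`. -/
theorem eval_abs_le (q : ℤ[X]) (D : ℕ) (hq : q.natDegree ≤ D) (u V : ℤ) (hV : 1 ≤ V)
    (hu : |u| ≤ V) :
    |q.eval u| ≤ (∑ i ∈ Finset.range (D + 1), |q.coeff i|) * V ^ D := by
  rw [eval_eq_sum_range' (Nat.lt_succ_of_le hq), Finset.sum_mul]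
  refine le_trans (Finset.abs_sum_le_sum_abs _ _) (Finset.sum_le_sum (fun i hi => ?_))
  rw [abs_mul, abs_pow]
  refine mul_le_mul_of_nonneg_left ?_ (abs_nonneg _)
  calc |u| ^ i ≤ V ^ i := pow_le_pow_left₀ (abs_nonneg _) hu i
    _ ≤ V ^ D := pow_le_pow_right₀ hV (Nat.lt_succ_iff.1 (Finset.mem_range.1 hi))

end Fermat.Agent.S52.T3.HitRoot
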