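import Mathlib

/-!
# PROJECT W (S52), T3, abstract brick: the interpolation determinant

Mathlib only.  For nodes `σ i` and values `y i` (`i : Fin (m + 1)`) we consider the square matrix
with rows `(1, σ i, …, (σ i) ^ (m - 1), y i)`.

* `detMat_dvd`: if the `y i` are congruent modulo `N` to the values at `σ i` of a polynomial of
  degree `< m` with integer coefficients, then `N` divides the determinant.
* `detMat_abs_le`: a crude size bound for the determinant.
* `exists_poly_of_det_zero`: if all these determinants vanish for the nodes in a finite set `S`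
  of natural numbers then the values are those of a rational polynomial of degree `< m`.
-/

namespace Fermat.Agent.S52.T3.HitRoot

open Polynomial Matrix

/-- The `(m+1) × (m+1)` matrix with rows `(1, σ i, …, (σ i)^(m-1), y i)`. -/
def detMat {R : Type*} [CommRing R] (m : ℕ) (σ y : Fin (m + 1) → R) :
    Matrix (Fin (m + 1)) (Fin (m + 1)) R :=
  fun i => Fin.snoc (α := fun _ => R) (fun j : Fin m => σ i ^ (j : ℕ)) (y i)

theorem detMat_castSucc {R : Type*} [CommRing R] (m : ℕ) (σ y : Fin (m + 1) → R)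
    (i : Fin (m + 1)) (j : Fin m) : detMat m σ y i (Fin.castSucc j) = σ i ^ (j : ℕ) := by
  simp [detMat]

theorem detMat_last {R : Type*} [CommRing R] (m : ℕ) (σ y : Fin (m + 1) → R)
    (i : Fin (m + 1)) : detMat m σ y i (Fin.last m) = y i := by
  simp [detMat]

theorem detMat_map {R S : Type*} [CommRing R] [CommRing S] (f : R →+* S) (m : ℕ)
    (σ y : Fin (m + 1) → R) :
    f.mapMatrix (detMat m σ y) = detMat m (fun i => f (σ i)) (fun i => f (y i)) := by
  ext i j
  refine Fin.lastCases ?_ (fun j => ?_) j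
  · simp [detMat_last]
  · simp [detMat_castSucc]

theorem detMat_mulVec {R : Type*} [CommRing R] (m : ℕ) (σ y : Fin (m + 1) → R)
    (v : Fin (m + 1) → R) (i : Fin (m + 1)) :
    (detMat m σ y).mulVec v i
      = (∑ j : Fin m, σ i ^ (j : ℕ) * v (Fin.castSucc j)) + y i * v (Fin.last m) := by
  rw [Matrix.mulVec, dotProduct, Fin.sum_univ_castSucc]
  simp only [detMat_castSucc, detMat_last]

/-- A square matrix killing a vector with a unit entry has determinant zero. -/
theorem det_eq_zero_of_mulVec_unit {n R : Type*} [Fintype n] [DecidableEq n] [CommRing R]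
    (M : Matrix n n R) (v : n → R) (h : M.mulVec v = 0) (i : n) (hu : IsUnit (v i)) :
    M.det = 0 := by
  have h1 : (M.adjugate * M).mulVec v = 0 := by
    rw [← Matrix.mulVec_mulVec, h, Matrix.mulVec_zero]
  rw [Matrix.adjugate_mul, Matrix.smul_mulVec, Matrix.one_mulVec] at h1
  have h2 := congrFun h1 i
  simp only [Pi.smul_apply, smul_eq_mul, Pi.zero_apply] at h2
  exact (hu.mul_left_eq_zero).1 h2

/-- Divisibility of the interpolation determinant. -/
theorem detMat_dvd (m N : ℕ) (σ y : Fin (m + 1) → ℤ) (c : Fin m → ℤ)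
    (h : ∀ i, (N : ℤ) ∣ y i - ∑ j : Fin m, c j * σ i ^ (j : ℕ)) :
    (N : ℤ) ∣ (detMat m σ y).det := by
  rw [← ZMod.intCast_zmod_eq_zero_iff_dvd]
  have h1 : ((detMat m σ y).det : ZMod N)
      = ((Int.castRingHom (ZMod N)).mapMatrix (detMat m σ y)).det := by
    rw [← RingHom.map_det]; rfl
  rw [h1, detMat_map]
  refine det_eq_zero_of_mulVec_unit _
    (Fin.snoc (α := fun _ => ZMod N) (fun j : Fin m => ((c j : ℤ) : ZMod N)) (-1)) ?_
    (Fin.last m) (by simp)
  funext i
  rw [detMat_mulVec]
  have h2 := (ZMod.intCast_zmod_eq_zero_iff_dvd _ N).2 (h i)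
  simp only [Fin.snoc_castSucc, Fin.snoc_last, Pi.zero_apply, eq_intCast]
  push_cast at h2
  rw [← neg_eq_zero, ← h2]
  simp only [mul_comm]
  ring

/-- A crude bound for the interpolation determinant. -/
theorem detMat_abs_le (m : ℕ) (X B : ℤ) (σ y : Fin (m + 1) → ℤ) (hX : 1 ≤ X)
    (hσ : ∀ i, |σ i| ≤ X) (hy : ∀ i, |y i| ≤ B) :
    |(detMat m σ y).det| ≤ ((m : ℤ) + 1) * B * ((m.factorial : ℤ) * (X ^ m) ^ m) := by
  rw [Matrix.det_succ_column _ (Fin.last m)]
  have hterm : ∀ i : Fin (m + 1),
      |(-1 : ℤ) ^ ((i : ℕ) + ((Fin.last m : Fin (m + 1)) : ℕ)) * detMat m σ y i (Fin.last m)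
        * ((detMat m σ y).submatrix i.succAbove (Fin.last m).succAbove).det|
      ≤ B * ((m.factorial : ℤ) * (X ^ m) ^ m) := by
    intro i
    rw [abs_mul, abs_mul, abs_pow, abs_neg, abs_one, one_pow, one_mul, detMat_last]
    have h1 : |((detMat m σ y).submatrix i.succAbove (Fin.last m).succAbove).det|
        ≤ (m.factorial : ℤ) * (X ^ m) ^ m := by
      have h2 := Matrix.det_le (A := (detMat m σ y).submatrix i.succAbove (Fin.last m).succAbove)
        (abv := AbsoluteValue.abs) (x := X ^ m) (fun i' j' => by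
          simp only [Matrix.submatrix_apply, Fin.succAbove_last, detMat_castSucc,
            AbsoluteValue.abs_apply, abs_pow]
          calc |σ (i.succAbove i')| ^ (j' : ℕ) ≤ X ^ (j' : ℕ) :=
                pow_le_pow_left₀ (abs_nonneg _) (hσ _) _
            _ ≤ X ^ m := pow_le_pow_right₀ hX (le_of_lt j'.isLt))
      simpa [Fintype.card_fin] using h2
    have hB : 0 ≤ B := le_trans (abs_nonneg _) (hy i)
    exact mul_le_mul (hy i) h1 (abs_nonneg _) hB
  calc |∑ i : Fin (m + 1), (-1 : ℤ) ^ ((i : ℕ) + ((Fin.last m : Fin (m + 1)) : ℕ))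
          * detMat m σ y i (Fin.last m)
          * ((detMat m σ y).submatrix i.succAbove (Fin.last m).succAbove).det|
      ≤ ∑ i : Fin (m + 1), |(-1 : ℤ) ^ ((i : ℕ) + ((Fin.last m : Fin (m + 1)) : ℕ))
          * detMat m σ y i (Fin.last m)
          * ((detMat m σ y).submatrix i.succAbove (Fin.last m).succAbove).det| :=
        Finset.abs_sum_le_sum_abs _ _
    _ ≤ ∑ _i : Fin (m + 1), B * ((m.factorial : ℤ) * (X ^ m) ^ m) :=
        Finset.sum_le_sum (fun i _ => hterm i)
    _ = ((m : ℤ) + 1) * B * ((m.factorial : ℤ) * (X ^ m) ^ m) := by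
        rw [Finset.sum_const, Finset.card_univ, Fintype.card_fin, nsmul_eq_mul]
        push_cast; ring

/-- If all interpolation determinants with nodes in `S` vanish, the values are those of a
rational polynomial of degree `< m`. -/
theorem exists_poly_of_det_zero (m : ℕ) (S : Finset ℕ) (hS : m ≤ S.card) (y : ℕ → ℤ)
    (hdet : ∀ σ : Fin (m + 1) → ℕ, Function.Injective σ → (∀ i, σ i ∈ S) →
      (detMat m (fun i => (σ i : ℤ)) (fun i => y (σ i))).det = 0) :
    ∃ Q : ℚ[X], Q.degree < m ∧ ∀ s ∈ S, Q.eval (s : ℚ) = y s := by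
  classical
  obtain ⟨T, hTS, hT⟩ := Finset.exists_subset_card_eq hS
  have hinj : Set.InjOn (fun s : ℕ => (s : ℚ)) T := Nat.cast_injective.injOn
  set Q : ℚ[X] := Lagrange.interpolate T (fun s : ℕ => (s : ℚ)) (fun s => (y s : ℚ)) with hQ
  have hQdeg : Q.degree < m := by
    have h := Lagrange.degree_interpolate_lt (r := fun s => (y s : ℚ)) hinj
    rwa [hT] at h
  have hQT : ∀ t ∈ T, Q.eval (t : ℚ) = y t := fun t ht =>
    Lagrange.eval_interpolate_at_node (r := fun s => (y s : ℚ)) hinj ht
  refine ⟨Q, hQdeg, fun s hs => ?_⟩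
  by_cases hsT : s ∈ T
  · exact hQT s hsT
  set e : Fin m ↪o ℕ := T.orderEmbOfFin hT with he
  have heT : ∀ i, e i ∈ T := fun i => T.orderEmbOfFin_mem hT i
  set σ : Fin (m + 1) → ℕ := Fin.snoc (α := fun _ => ℕ) e s with hσ
  have hσc : ∀ i : Fin m, σ (Fin.castSucc i) = e i := fun i => by simp [hσ]
  have hσl : σ (Fin.last m) = s := by simp [hσ]
  have hσinj : Function.Injective σ := by
    refine Fin.snoc_injective_of_injective e.injective ?_
    rintro ⟨i, hi⟩
    exact hsT (hi ▸ heT i)
  have hσS : ∀ i, σ i ∈ S := by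
    intro i
    refine Fin.lastCases ?_ (fun j => ?_) i
    · rw [hσl]; exact hs
    · rw [hσc]; exact hTS (heT j)
  have h0 := hdet σ hσinj hσS
  have h1 : (detMat m (fun i => ((σ i : ℕ) : ℚ)) (fun i => ((y (σ i) : ℤ) : ℚ))).det = 0 := by
    have h2 := congrArg (Int.castRingHom ℚ) h0
    rw [RingHom.map_det, detMat_map] at h2
    simpa using h2
  obtain ⟨v, hv0, hv⟩ := (Matrix.exists_mulVec_eq_zero_iff).2 h1
  set R : ℚ[X] := (∑ j : Fin m, C (v (Fin.castSucc j)) * X ^ (j : ℕ))
    + C (v (Fin.last m)) * Q with hR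
  have hRdeg : R.degree < m := by
    refine lt_of_le_of_lt (degree_add_le _ _) (max_lt (degree_sum_fin_lt _) ?_)
    rw [← smul_eq_C_mul]
    exact lt_of_le_of_lt (degree_smul_le _ _) hQdeg
  have hReval : ∀ x : ℚ, R.eval x
      = (∑ j : Fin m, x ^ (j : ℕ) * v (Fin.castSucc j)) + Q.eval x * v (Fin.last m) := by
    intro x
    rw [hR, eval_add, eval_finsetSum, eval_mul, eval_C, mul_comm (v (Fin.last m))]
    congr 1
    refine Finset.sum_congr rfl (fun j _ => ?_)
    rw [eval_mul, eval_C, eval_pow, eval_X, mul_comm]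
  have hRT : ∀ i : Fin m, R.eval ((e i : ℕ) : ℚ) = 0 := by
    intro i
    have h3 := congrFun hv (Fin.castSucc i)
    rw [detMat_mulVec] at h3
    simp only [hσc, Pi.zero_apply] at h3
    rw [hReval, hQT (e i) (heT i)]
    exact h3
  have hR0 : R = 0 :=
    eq_zero_of_degree_lt_of_eval_index_eq_zero (v := fun i : Fin m => ((e i : ℕ) : ℚ))
      Finset.univ (fun i _ j _ hij => e.injective (Nat.cast_injective hij))
      (by simpa using hRdeg) (fun i _ => hRT i)
  have hvl : v (Fin.last m) ≠ 0 := by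
    intro hvl
    apply hv0
    have h4 : (∑ j : Fin m, C (v (Fin.castSucc j)) * X ^ (j : ℕ)) = 0 := by
      have h5 := hR0
      rw [hR, hvl, C_0, zero_mul, add_zero] at h5
      exact h5
    funext i
    refine Fin.lastCases ?_ (fun j => ?_) i
    · simpa using hvl
    · have h6 := congrArg (fun q : ℚ[X] => q.coeff (j : ℕ)) h4
      simp only [finsetSum_coeff, coeff_C_mul, coeff_X_pow, coeff_zero] at h6
      rw [Finset.sum_eq_single j] at h6
      · simpa using h6
      · intro b _ hb
        have : (j : ℕ) ≠ (b : ℕ) := fun h => hb (Fin.ext h.symm)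
        simp [this]
      · intro h; exact absurd (Finset.mem_univ j) h
  have h7 := congrFun hv (Fin.last m)
  rw [detMat_mulVec] at h7
  simp only [hσl, Pi.zero_apply] at h7
  have h8 : R.eval (s : ℚ) = 0 := by rw [hR0, eval_zero]
  rw [hReval] at h8
  have h9 : (Q.eval (s : ℚ) - (y s : ℚ)) * v (Fin.last m) = 0 := by
    rw [sub_mul]; linarith
  rcases mul_eq_zero.1 h9 with h | h
  · exact sub_eq_zero.1 h
  · exact absurd h hvl

end Fermat.Agent.S52.T3.HitRoot
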