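import Mathlib

/-!
# PROJECT W (S52), T3, abstract brick: finite-level Newton–Hensel lifting

Mathlib only.  Two elementary lemmas:

* `newton_lift`: in an arbitrary commutative ring `A`, for an element `π`, a polynomial
  `F ∈ A[X]` and `a b : A` with `π ∣ F(a)` and `π ∣ F'(a) b - 1`, for every `L` there is `z`
  with `π ∣ z - a` and `π ^ (L + 1) ∣ F(z)` (Newton iteration, no completeness needed).
* `int_root_unique`: uniqueness of such approximate roots over `ℤ` modulo `p ^ N`.
-/

namespace Fermat.Agent.S52.T3.HitRoot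

open Polynomial

/-- Finite-level Newton–Hensel lifting modulo the powers of an element `π` of an arbitrary
commutative ring. -/
theorem newton_lift {A : Type*} [CommRing A] (π : A) (F : A[X]) (a b : A)
    (ha : π ∣ F.eval a) (hb : π ∣ F.derivative.eval a * b - 1) :
    ∀ L : ℕ, ∃ z : A, π ∣ z - a ∧ π ^ (L + 1) ∣ F.eval z := by
  intro L
  induction L with
  | zero => exact ⟨a, by simp, by simpa using ha⟩
  | succ L ih =>
    obtain ⟨z, hza, hz⟩ := ih
    have h1 : π ∣ F.eval z := dvd_trans (dvd_pow_self π (Nat.succ_ne_zero L)) hz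
    refine ⟨z - F.eval z * b, ?_, ?_⟩
    · have h2 : z - F.eval z * b - a = (z - a) - F.eval z * b := by ring
      rw [h2]
      exact dvd_sub hza (h1.mul_right b)
    · obtain ⟨k, hk⟩ := F.binomExpansion z (-(F.eval z * b))
      have hd : π ∣ F.derivative.eval z * b - 1 := by
        have h2 : z - a ∣ F.derivative.eval z - F.derivative.eval a :=
          sub_dvd_eval_sub z a _
        have h3 : π ∣ F.derivative.eval z - F.derivative.eval a := dvd_trans hza h2
        have h4 : F.derivative.eval z * b - 1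
            = (F.derivative.eval z - F.derivative.eval a) * b
              + (F.derivative.eval a * b - 1) := by ring
        rw [h4]
        exact dvd_add (h3.mul_right b) hb
      have h5 : F.eval (z - F.eval z * b)
          = F.eval z * (-(F.derivative.eval z * b - 1)) + k * b ^ 2 * (F.eval z) ^ 2 := by
        rw [sub_eq_add_neg, hk]; ring
      rw [h5]
      refine dvd_add ?_ ?_
      · rw [pow_succ]
        exact mul_dvd_mul hz ((dvd_neg).2 hd)
      · have h6 : π ^ (L + 1 + 1) ∣ (F.eval z) ^ 2 := by
          have h7 : π ^ (L + 1 + 1) ∣ π ^ ((L + 1) * 2) := pow_dvd_pow _ (by omega)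
          have h8 : π ^ ((L + 1) * 2) = (π ^ (L + 1)) ^ 2 := pow_mul _ _ _
          exact dvd_trans (h8 ▸ h7) (pow_dvd_pow_of_dvd hz 2)
        exact h6.mul_left _

/-- Uniqueness of approximate roots over `ℤ`: two integers congruent modulo `p`, both roots of
`f` modulo `p ^ N`, with `f'` a unit modulo `p` at one of them, are congruent modulo `p ^ N`. -/
theorem int_root_unique (p : ℕ) [Fact p.Prime] (f : ℤ[X]) (N : ℕ) (y z : ℤ)
    (hy : (p : ℤ) ^ N ∣ f.eval y) (hz : (p : ℤ) ^ N ∣ f.eval z) (hyz : (p : ℤ) ∣ y - z)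
    (hder : ¬ (p : ℤ) ∣ f.derivative.eval z) : (p : ℤ) ^ N ∣ y - z := by
  obtain ⟨k, hk⟩ := f.binomExpansion z (y - z)
  have h0 : z + (y - z) = y := by ring
  rw [h0] at hk
  have h1 : f.eval y - f.eval z = (y - z) * (f.derivative.eval z + k * (y - z)) := by
    rw [hk]; ring
  have h2 : (p : ℤ) ^ N ∣ (y - z) * (f.derivative.eval z + k * (y - z)) :=
    h1 ▸ dvd_sub hy hz
  have hp : Prime (p : ℤ) := Nat.prime_iff_prime_int.1 Fact.out
  have h3 : ¬ (p : ℤ) ∣ f.derivative.eval z + k * (y - z) := fun h => hder (by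
    have h4 := dvd_sub h (hyz.mul_left k)
    simpa using h4)
  exact hp.pow_dvd_of_dvd_mul_right N h3 h2

end Fermat.Agent.S52.T3.HitRoot
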