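import Mathlib
import Fermat.Agent.S52.T3.HitRoot.Newton

/-!
# PROJECT W (S52), T3, abstract brick: the local (p-adic) polynomial model of the integer roots

Mathlib only.  `Gp : ℤ[X][X]` is a polynomial in `y` over `ℤ[u]`; for a ring hom `φ : ℤ[X] →+* R`
and `y : R` the value `G_φ(y)` is `Gp.eval₂ φ y`.

Main statement `exists_local_coeffs`: if `ā` is a simple root of `G(u0, ·)` modulo `p`, then for
`k ≥ 2`, `m ≥ 1` there are integers `c_0, …, c_{m-1}` such that every integer root `y ≡ ā` of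
`G(u0 + p ^ k s, ·)` satisfies `y ≡ ∑ c_j s ^ j` modulo `p ^ ((k - 1) m)`.
-/

namespace Fermat.Agent.S52.T3.HitRoot

open Polynomial

/-- Ring homs out of `ℤ[X]` are determined by the image of `X`. -/
theorem ringHom_ext_int {S : Type*} [Semiring S] {f g : ℤ[X] →+* S} (h : f X = g X) : f = g :=
  Polynomial.ringHom_ext' (RingHom.ext_int _ _) h

theorem C_natCast_dvd_iff (p : ℕ) (f : ℤ[X]) :
    C (p : ℤ) ∣ f ↔ f.map (Int.castRingHom (ZMod p)) = 0 := by
  rw [Polynomial.C_dvd_iff_dvd_coeff, Polynomial.ext_iff]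
  refine forall_congr' (fun i => ?_)
  rw [coeff_map, coeff_zero, eq_intCast, ZMod.intCast_zmod_eq_zero_iff_dvd]

/-- Reduction modulo `p` only sees `u` modulo `p`. -/
theorem red_comp_eval_congr (p : ℕ) (u u0 : ℤ) (h : (p : ℤ) ∣ u - u0) :
    (Int.castRingHom (ZMod p)).comp (evalRingHom u)
      = (Int.castRingHom (ZMod p)).comp (evalRingHom u0) := by
  refine ringHom_ext_int ?_
  simp only [RingHom.coe_comp, Function.comp_apply, coe_evalRingHom, eval_X, eq_intCast]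
  exact ((ZMod.intCast_eq_intCast_iff_dvd_sub _ _ p).2 h).symm

theorem eval_comp_shift (p : ℕ) (u0 s' : ℤ) :
    (evalRingHom s').comp (compRingHom (C u0 + C (p : ℤ) * X))
      = evalRingHom (u0 + (p : ℤ) * s') := by
  refine ringHom_ext_int ?_
  simp

/-- The value at a constant of the shifted polynomial, reduced modulo `p`. -/
theorem map_eval₂_shift (p : ℕ) (u0 : ℤ) (H : ℤ[X][X]) (a : ℤ) :
    (H.eval₂ (compRingHom (C u0 + C (p : ℤ) * X)) (C a)).map (Int.castRingHom (ZMod p))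
      = C (H.eval₂ ((Int.castRingHom (ZMod p)).comp (evalRingHom u0)) ((a : ℤ) : ZMod p)) := by
  have h1 : (mapRingHom (Int.castRingHom (ZMod p))).comp (compRingHom (C u0 + C (p : ℤ) * X))
      = (C : ZMod p →+* (ZMod p)[X]).comp
          ((Int.castRingHom (ZMod p)).comp (evalRingHom u0)) :=
    ringHom_ext_int (by simp)
  rw [← coe_mapRingHom, hom_eval₂, h1, hom_eval₂]
  simp

/-- Truncation of `P(c s)` modulo `c ^ m`. -/
theorem eval_scaled_trunc (P : ℤ[X]) (c : ℤ) (m : ℕ) (s : ℤ) :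
    c ^ m ∣ P.eval (c * s) - ∑ j : Fin m, (P.coeff (j : ℕ) * c ^ (j : ℕ)) * s ^ (j : ℕ) := by
  have h1 : P.eval (c * s) = ∑ i ∈ Finset.range (m + (P.natDegree + 1)), P.coeff i * (c * s) ^ i :=
    eval_eq_sum_range' (by omega) _
  rw [h1, Finset.sum_range_add, Fin.sum_univ_eq_sum_range
    (fun j => (P.coeff j * c ^ j) * s ^ j) m]
  have h2 : ∑ x ∈ Finset.range m, P.coeff x * (c * s) ^ x
      = ∑ x ∈ Finset.range m, P.coeff x * c ^ x * s ^ x :=
    Finset.sum_congr rfl (fun x _ => by rw [mul_pow]; ring)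
  rw [h2, add_sub_cancel_left]
  refine Finset.dvd_sum (fun i _ => ?_)
  rw [mul_pow, pow_add]
  exact Dvd.intro (P.coeff (m + i) * (c ^ i * s ^ (m + i))) (by ring)

/-- The local polynomial model of the integer roots near a simple residue root. -/
theorem exists_local_coeffs (Gp : ℤ[X][X]) (p : ℕ) [Fact p.Prime] (u0 : ℤ) (abar : ZMod p)
    (h0 : Gp.eval₂ ((Int.castRingHom (ZMod p)).comp (evalRingHom u0)) abar = 0)
    (h1 : (derivative Gp).eval₂ ((Int.castRingHom (ZMod p)).comp (evalRingHom u0)) abar ≠ 0)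
    (k m : ℕ) (hk : 2 ≤ k) (hm : 1 ≤ m) :
    ∃ c : Fin m → ℤ, ∀ s y : ℤ, Gp.eval₂ (evalRingHom (u0 + (p : ℤ) ^ k * s)) y = 0 →
      ((y : ℤ) : ZMod p) = abar →
      (p : ℤ) ^ ((k - 1) * m) ∣ y - ∑ j : Fin m, c j * s ^ (j : ℕ) := by
  obtain ⟨a, ha⟩ := ZMod.intCast_surjective abar
  set δ := (derivative Gp).eval₂ ((Int.castRingHom (ZMod p)).comp (evalRingHom u0)) abar with hδ
  obtain ⟨b, hb⟩ := ZMod.intCast_surjective δ⁻¹
  set φ : ℤ[X] →+* ℤ[X] := compRingHom (C u0 + C (p : ℤ) * X) with hφ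
  set F : ℤ[X][X] := Gp.map φ with hF
  have hFa : C (p : ℤ) ∣ F.eval (C a) := by
    rw [C_natCast_dvd_iff, hF, eval_map, hφ, map_eval₂_shift, ha, h0, C_0]
  have hFb : C (p : ℤ) ∣ F.derivative.eval (C a) * C b - 1 := by
    rw [C_natCast_dvd_iff, hF, derivative_map, eval_map, Polynomial.map_sub, Polynomial.map_mul,
      hφ, map_eval₂_shift, ha, ← hδ, Polynomial.map_one, map_C, eq_intCast, hb, ← C_mul,
      mul_inv_cancel₀ h1, C_1, sub_self]
  obtain ⟨L, hL⟩ : ∃ L, (k - 1) * m = L + 1 :=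
    ⟨(k - 1) * m - 1, by
      have : 1 ≤ (k - 1) * m := Nat.mul_pos (by omega) hm
      omega⟩
  obtain ⟨P, hPa, hPL⟩ := newton_lift (C (p : ℤ)) F (C a) (C b) hFa hFb L
  rw [hF, eval_map, ← hL] at hPL
  refine ⟨fun j => P.coeff (j : ℕ) * ((p : ℤ) ^ (k - 1)) ^ (j : ℕ), fun s y hy hya => ?_⟩
  set s' : ℤ := (p : ℤ) ^ (k - 1) * s with hs'
  have hu : u0 + (p : ℤ) * s' = u0 + (p : ℤ) ^ k * s := by
    rw [hs', ← mul_assoc, ← pow_succ']
    congr 3
    omega
  set z : ℤ := P.eval s' with hz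
  have hz1 : (p : ℤ) ∣ z - a := by
    have h2 := map_dvd (evalRingHom s') hPa
    simpa using h2
  have hz2 : (p : ℤ) ^ ((k - 1) * m) ∣ Gp.eval₂ (evalRingHom (u0 + (p : ℤ) ^ k * s)) z := by
    have h2 := map_dvd (evalRingHom s') hPL
    rw [hom_eval₂, hφ, eval_comp_shift, hu] at h2
    simpa using h2
  have hzbar : ((z : ℤ) : ZMod p) = abar := by
    rw [← ha]
    exact ((ZMod.intCast_eq_intCast_iff_dvd_sub _ _ p).2 hz1).symm
  have hyz : (p : ℤ) ∣ y - z := by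
    rw [← ZMod.intCast_eq_intCast_iff_dvd_sub, hzbar, hya]
  have hup : (p : ℤ) ∣ (u0 + (p : ℤ) ^ k * s) - u0 := by
    rw [add_sub_cancel_left]
    exact Dvd.dvd.mul_right (dvd_pow_self _ (by omega)) _
  set f : ℤ[X] := Gp.map (evalRingHom (u0 + (p : ℤ) ^ k * s)) with hf
  have hder : ¬ (p : ℤ) ∣ f.derivative.eval z := by
    rw [← ZMod.intCast_zmod_eq_zero_iff_dvd, hf, derivative_map, eval_map, ← eq_intCast
      (Int.castRingHom (ZMod p)), hom_eval₂, red_comp_eval_congr p _ u0 hup, eq_intCast, hzbar]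
    exact h1
  have h3 : (p : ℤ) ^ ((k - 1) * m) ∣ y - z := by
    refine int_root_unique p f ((k - 1) * m) y z ?_ ?_ hyz hder
    · rw [hf, eval_map, hy]; exact dvd_zero _
    · rw [hf, eval_map]; exact hz2
  have h4 : (p : ℤ) ^ ((k - 1) * m) ∣ z - ∑ j : Fin m,
      (P.coeff (j : ℕ) * ((p : ℤ) ^ (k - 1)) ^ (j : ℕ)) * s ^ (j : ℕ) := by
    rw [pow_mul]
    exact eval_scaled_trunc P ((p : ℤ) ^ (k - 1)) m s
  have h5 : y - ∑ j : Fin m, (P.coeff (j : ℕ) * ((p : ℤ) ^ (k - 1)) ^ (j : ℕ)) * s ^ (j : ℕ)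
      = (y - z) + (z - ∑ j : Fin m,
        (P.coeff (j : ℕ) * ((p : ℤ) ^ (k - 1)) ^ (j : ℕ)) * s ^ (j : ℕ)) := by ring
  rw [h5]
  exact dvd_add h3 h4

end Fermat.Agent.S52.T3.HitRoot
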